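import Fermat.Agent.S24.Mod
import Fermat.Agent.S24.Alg

/-!
# S18 / MOD M2 (c2) — branch values of `F_N / ℚ̄(j)` in characteristic `0` (helper384)

`F_N = FF N = modularFunctionFieldBar N`, `K = Kbar = ℚ̄`, `j = jF N`.  Place form of
"`F_N / K(j)` is unramified outside `j ∈ {0, 1728, ∞}`, with ramification indices dividing
`3`, `2`, `N` there":

* `ord_jF_sub_eq_one`        : `a ≠ 0`, `a ≠ 1728`, `0 < v.ord (j - a)`  ⟹  `v.ord (j - a) = 1`;
* `ord_jF_dvd_three`         : `0 < v.ord j`            ⟹  `v.ord j ∣ 3`;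
* `ord_jF_sub_1728_dvd_two`  : `0 < v.ord (j - 1728)`   ⟹  `v.ord (j - 1728) ∣ 2`;
* `ord_jF_inv_dvd_level`     : `0 < v.ord j⁻¹`          ⟹  `v.ord j⁻¹ ∣ N`;
* `exists_point_jF`          : every place lies over a point of `ℙ¹_j`;
* `card_places_over_generic` : exactly `[F_N : K(j)] = #(SL₂(ℤ)/Γ₀(N))` places over a generic `a`.

Source: the concrete analytic core `S24.H997.analyticCore N` (multiplicities `m = 1, 3, 2, N` of
its local data) and helper117's local theorem (`mult * ord_v t = m`).
-/

set_option autoImplicit false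
set_option linter.style.haveILetI false

noncomputable section

open AlgebraicCurve ModularCurve
open scoped MatrixGroups

namespace Fermat.Agent.S18.H384

open Fermat.Agent.S24

section Generic

variable {K F : Type*} [Field K] [Field F] [Algebra K F] [CharZero K]
variable {C : Type*} [Field C] {X : Type*} [Finite X]

/-- For local data at `t` (with `[F : K(t)] = #X`), the order of `t` at any of its zeros divides
the multiplicity `m` of the data. -/
theorem ord_dvd_m_of_localData (t : F)
    [FiniteDimensional ↥(IntermediateField.adjoin K {t}) F]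
    (hrank : Module.finrank ↥(IntermediateField.adjoin K {t}) F = Nat.card X)
    (d : LocalData K F C X t) (v : Place K F) (hv : 0 < v.ord t) :
    v.ord t ∣ (d.m : ℤ) := by
  obtain ⟨x, rfl⟩ :=
    H117.exists_placeOf_eq d (IntermediateField.adjoin K {t}) le_rfl hrank v hv
  exact Dvd.intro_left _ (H117.mult_mul_ord_t d x)

end Generic

theorem mpr_heq_self {α β : Type} (h : α = β) (x : β) : HEq (Eq.mpr h x) x := by
  subst h; rfl

theorem pointData_m_of_heq {N : ℕ} [NeZero N] {B : H997.HolBase N} {ε : SL(2, ℤ)} {a b : ℂ} (hab : a = b)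
    {P : H997.PointData B a ε} {Q : H997.PointData B b ε} (h : HEq P Q) : P.R.m = Q.R.m := by
  subst hab
  obtain rfl := eq_of_heq h
  rfl

variable (N : ℕ) [NeZero N]

theorem finiteDimensional_jF :
    FiniteDimensional ↥(IntermediateField.adjoin Kbar {jF N}) (FF N) :=
  (Deg457.degree_fields N).1

theorem finrank_jF :
    Module.finrank ↥(IntermediateField.adjoin Kbar {jF N}) (FF N) = Nat.card (XX N) := by
  haveI := finiteDimensional_jF N
  exact le_antisymm (Deg457.degree_fields N).2 (H997.analyticCore N).card_le_finrank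

theorem transcendental_jF : Transcendental Kbar (jF N) :=
  transcendental_of_localData_inv (jF N) (H997.analyticCore N).dataInf

theorem dataFin_zero_m : ((H997.analyticCore N).dataFin 0).m = 3 := by
  unfold H997.AnalyticCore.dataFin
  rw [dif_pos rfl]
  show (H997.PointData.R _).m = 3
  refine (pointData_m_of_heq (map_zero H997.ιK) ?_).trans
    (b := ((H997.analyticCore N).at0).R.m) ?_
  · exact (mpr_heq_self _ _).trans (mpr_heq_self _ _)
  · rfl

theorem dataFin_1728_m : ((H997.analyticCore N).dataFin 1728).m = 2 := by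
  have h0 : (1728 : Kbar) ≠ 0 := by norm_num
  unfold H997.AnalyticCore.dataFin
  rw [dif_neg h0, dif_pos rfl]
  show (H997.PointData.R _).m = 2
  refine (pointData_m_of_heq (map_ofNat H997.ιK 1728) ?_).trans
    (b := ((H997.analyticCore N).at1728).R.m) ?_
  · exact mpr_heq_self _ _
  · rfl

theorem dataInf_m : (H997.analyticCore N).dataInf.m = N := rfl

variable {N}

/-- **M2, generic value.** `F_N / ℚ̄(j)` is unramified over every `a ∉ {0, 1728}`. -/
theorem ord_jF_sub_eq_one (a : Kbar) (h0 : a ≠ 0) (h1 : a ≠ 1728) (v : Place Kbar (FF N))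
    (hv : 0 < v.ord (jF N - algebraMap Kbar (FF N) a)) :
    v.ord (jF N - algebraMap Kbar (FF N) a) = 1 := by
  haveI := finiteDimensional_jF N
  obtain ⟨Z, -, -, -, h⟩ := local_fin (jF N) (finrank_jF N) a ((H997.analyticCore N).dataFin a)
  exact h ((H997.analyticCore N).dataFin_perm_generic a h0 h1) v hv

/-- **M2, `j = 0`.** Ramification indices over `j = 0` divide `3`. -/
theorem ord_jF_dvd_three (v : Place Kbar (FF N)) (hv : 0 < v.ord (jF N)) :
    v.ord (jF N) ∣ 3 := by
  haveI := finiteDimensional_jF N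
  have e : jF N - algebraMap Kbar (FF N) 0 = jF N := by rw [map_zero, sub_zero]
  obtain ⟨hfd, hfr⟩ := finiteDimensional_and_finrank_of_eq (adjoin_sub_algebraMap Kbar (jF N) 0)
  have h := ord_dvd_m_of_localData (jF N - algebraMap Kbar (FF N) 0) (hfr.trans (finrank_jF N))
    ((H997.analyticCore N).dataFin 0) v (by rwa [e])
  rw [dataFin_zero_m, e] at h
  exact_mod_cast h

/-- **M2, `j = 1728`.** Ramification indices over `j = 1728` divide `2`. -/
theorem ord_jF_sub_1728_dvd_two (v : Place Kbar (FF N))
    (hv : 0 < v.ord (jF N - algebraMap Kbar (FF N) 1728)) :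
    v.ord (jF N - algebraMap Kbar (FF N) 1728) ∣ 2 := by
  haveI := finiteDimensional_jF N
  obtain ⟨hfd, hfr⟩ :=
    finiteDimensional_and_finrank_of_eq (adjoin_sub_algebraMap Kbar (jF N) 1728)
  have h := ord_dvd_m_of_localData (jF N - algebraMap Kbar (FF N) 1728)
    (hfr.trans (finrank_jF N)) ((H997.analyticCore N).dataFin 1728) v hv
  rw [dataFin_1728_m] at h
  exact_mod_cast h

/-- **M2, `j = ∞`.** Ramification indices over `j = ∞` divide the level. -/
theorem ord_jF_inv_dvd_level (v : Place Kbar (FF N)) (hv : 0 < v.ord (jF N)⁻¹) :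
    v.ord (jF N)⁻¹ ∣ (N : ℤ) := by
  haveI := finiteDimensional_jF N
  obtain ⟨hfd, hfr⟩ := finiteDimensional_and_finrank_of_eq (adjoin_inv Kbar (jF N))
  have h := ord_dvd_m_of_localData (jF N)⁻¹ (hfr.trans (finrank_jF N))
    (H997.analyticCore N).dataInf v hv
  rwa [dataInf_m] at h

/-- Every place of `F_N` lies over a point of `ℙ¹_j`. -/
theorem exists_point_jF (v : Place Kbar (FF N)) :
    v.ord (jF N) < 0 ∨ ∃ a : Kbar, 0 < v.ord (jF N - algebraMap Kbar (FF N) a) := by
  haveI := finiteDimensional_jF N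
  exact sub_exists_point (jF N) v

/-- Over a generic value `a ∉ {0, 1728}` there are exactly `#(SL₂(ℤ)/Γ₀(N))` places. -/
theorem card_places_over_generic (a : Kbar) (h0 : a ≠ 0) (h1 : a ≠ 1728) :
    {v : Place Kbar (FF N) | 0 < v.ord (jF N - algebraMap Kbar (FF N) a)}.Finite ∧
    Nat.card ↥{v : Place Kbar (FF N) | 0 < v.ord (jF N - algebraMap Kbar (FF N) a)}
      = Nat.card (XX N) := by
  haveI := finiteDimensional_jF N
  obtain ⟨hfd, hfr⟩ := finiteDimensional_and_finrank_of_eq (adjoin_sub_algebraMap Kbar (jF N) a)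
  obtain ⟨h1', h2, -⟩ := sub_local_count (jF N - algebraMap Kbar (FF N) a)
    (hfr.trans (finrank_jF N)) ((H997.analyticCore N).dataFin a)
  refine ⟨h1', ?_⟩
  have h3 : Nat.card ↥(zeroPlaces Kbar (jF N - algebraMap Kbar (FF N) a)) = Nat.card (XX N) := by
    rw [h2, (H997.analyticCore N).dataFin_perm_generic a h0 h1, numOrbits_one]
  exact h3

end Fermat.Agent.S18.H384
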