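import Fermat.Agent.Lib.RR.Ord

/-!
# S18 / MOD M2 (c3-transfer) — branch values of a Hauptmodul from those of `j` (helper384)

Abstract, Mathlib + Prelude `Place` only.  `F/K` a field extension, `char K = 0`, `j t : F`.

Assume the `j`-line hypotheses (all provided for `F = F_M`, `j = jF M` by `BranchJ.lean`):
* `JGen`  : `a ∉ {0, 1728}`, `0 < ord_v (j - a)`  ⟹  `ord_v (j - a) = 1`;
* `JZero` : `0 < ord_v j`  ⟹  `ord_v j ∣ 3`;
* `J1728` : `0 < ord_v (j - 1728)`  ⟹  `ord_v (j - 1728) ∣ 2`.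

Then
* `ord_t2_sub_eq_one` : if `j * t^2 = (t + 256)^3`, then `ord_v (t - c) = 1` at every zero of `t - c`,
  `c ∉ {0, -64}`;   `ord_t2_add_64_dvd_two` : `ord_v (t + 64) ∣ 2`;
* `ord_t3_sub_eq_one` : if `j * t^3 = (t + 27) * (t + 243)^3`, then `ord_v (t - c) = 1` at every
  zero of `t - c`, `c ∉ {0, -27}`;   `ord_t3_add_27_dvd_three` : `ord_v (t + 27) ∣ 3`.
* poles/zeros of `t`: `ord_j_of_t2_pole`, `ord_j_of_t2_zero`, `ord_j_of_t3_pole`, `ord_j_of_t3_zero`
  (`ord_v j = ord_v t`, resp. `-2 ord_v t`, `ord_v t`, `-3 ord_v t`).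
-/

set_option autoImplicit false

noncomputable section

open AlgebraicCurve

namespace Fermat.Agent.S18.H384

open Fermat.Agent.Lib.RR

variable {K F : Type*} [Field K] [Field F] [Algebra K F]

/-- A function congruent to a nonzero constant modulo a function of positive order is a unit at
the place. -/
theorem ord_const_add_eq_zero (v : Place K F) {π r u : F} {u₀ : K} (hπ : 0 < v.ord π)
    (hr : 0 ≤ v.ord r) (hu₀ : u₀ ≠ 0) (hu : u = algebraMap K F u₀ + π * r) :
    u ≠ 0 ∧ v.ord u = 0 := by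
  have hc : algebraMap K F u₀ ≠ 0 := by
    rwa [Ne, map_eq_zero]
  have hc0 : v.ord (algebraMap K F u₀) = 0 := ord_algebraMap v u₀
  have hπ0 : π ≠ 0 := ne_zero_of_ord_ne_zero v hπ.ne'
  rcases eq_or_ne r 0 with rfl | hr0
  · rw [mul_zero, add_zero] at hu
    rw [hu]; exact ⟨hc, hc0⟩
  · have hπr : π * r ≠ 0 := mul_ne_zero hπ0 hr0
    have hlt : v.ord (algebraMap K F u₀) < v.ord (π * r) := by
      rw [v.ord_mul hπ0 hr0, hc0]; omega
    have h := ord_add_eq_of_lt v hc hπr hlt
    rw [← hu, hc0] at h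
    refine ⟨?_, h⟩
    intro h0
    have hneg : π * r = -algebraMap K F u₀ := by
      rw [h0] at hu
      linear_combination -hu
    rw [hneg, ord_neg] at hlt
    exact lt_irrefl _ hlt

/-- **Local computation.**  If `x * D = π ^ k * U` with `D`, `U` congruent to nonzero constants
modulo `π`, `0 < ord_v π`, then `x ≠ 0` and `ord_v x = k * ord_v π`. -/
theorem ord_eq_mul_of_factor (v : Place K F) {π x D U D₁ U₁ : F} {D₀ U₀ : K} (k : ℕ)
    (hπ : 0 < v.ord π) (hD₁ : 0 ≤ v.ord D₁) (hU₁ : 0 ≤ v.ord U₁) (hD₀ : D₀ ≠ 0) (hU₀ : U₀ ≠ 0)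
    (hD : D = algebraMap K F D₀ + π * D₁) (hU : U = algebraMap K F U₀ + π * U₁)
    (h : x * D = π ^ k * U) : x ≠ 0 ∧ v.ord x = k * v.ord π := by
  obtain ⟨hDne, hDord⟩ := ord_const_add_eq_zero v hπ hD₁ hD₀ hD
  obtain ⟨hUne, hUord⟩ := ord_const_add_eq_zero v hπ hU₁ hU₀ hU
  have hπ0 : π ≠ 0 := ne_zero_of_ord_ne_zero v hπ.ne'
  have hx : x ≠ 0 := by
    rintro rfl
    rw [zero_mul] at h
    exact mul_ne_zero (pow_ne_zero k hπ0) hUne h.symm
  refine ⟨hx, ?_⟩
  have h1 := congrArg v.ord h
  rw [v.ord_mul hx hDne, v.ord_mul (pow_ne_zero k hπ0) hUne, ord_pow, hDord, hUord] at h1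
  omega

/-- Polynomial expressions in an integral function are integral: helper for membership goals. -/
theorem ord_nonneg_of_sub_pos (v : Place K F) {t : F} {c : K}
    (h : 0 < v.ord (t - algebraMap K F c)) : t ∈ v.toValuationSubring := by
  have h1 : t - algebraMap K F c ∈ v.toValuationSubring := mem_of_ord_nonneg v h.le
  have h2 := add_mem h1 (v.algebraMap_mem' c)
  rwa [sub_add_cancel] at h2

theorem eq_one_of_mul_dvd {e : ℤ} (he : 0 < e) {k : ℤ} (hk : k ≠ 0) (h : k * e ∣ k) : e = 1 := by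
  have h1 : k * e ∣ k * 1 := by rwa [mul_one]
  exact Int.eq_one_of_dvd_one he.le ((mul_dvd_mul_iff_left hk).mp h1)

section T2

variable [CharZero K] {j t : F} (hjt : j * t ^ 2 = (t + 256) ^ 3)

include hjt

/-- `j - 1728` in terms of `t = t₂`. -/
theorem t2_sub_1728 : (j - 1728) * t ^ 2 = (t + 64) * (t - 512) ^ 2 := by
  linear_combination hjt

/-- **Branch values of `t₂`.**  Outside `c ∈ {0, -64}` (and `∞`) the function `t₂` is unramified. -/
theorem ord_t2_sub_eq_one
    (JGen : ∀ (a : K), a ≠ 0 → a ≠ 1728 → ∀ v : Place K F,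
      0 < v.ord (j - algebraMap K F a) → v.ord (j - algebraMap K F a) = 1)
    (JZero : ∀ v : Place K F, 0 < v.ord j → v.ord j ∣ 3)
    (J1728 : ∀ v : Place K F, 0 < v.ord (j - algebraMap K F 1728) →
      v.ord (j - algebraMap K F 1728) ∣ 2)
    (c : K) (hc0 : c ≠ 0) (hc64 : c ≠ -64) (v : Place K F)
    (hv : 0 < v.ord (t - algebraMap K F c)) : v.ord (t - algebraMap K F c) = 1 := by
  have htO : t ∈ v.toValuationSubring := ord_nonneg_of_sub_pos v hv
  have hcO : algebraMap K F c ∈ v.toValuationSubring := v.algebraMap_mem' c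
  have hn : ∀ n : ℕ, (n : F) ∈ v.toValuationSubring := fun n => natCast_mem _ n
  have h256O : (256 : F) ∈ v.toValuationSubring := by exact_mod_cast hn 256
  have h2O : (2 : F) ∈ v.toValuationSubring := by exact_mod_cast hn 2
  set C := algebraMap K F c with hC
  by_cases h256 : c = -256
  · -- over `j = 0`, `t + 256` appears to the third power
    have hCv : C = -256 := by rw [hC, h256, map_neg, map_ofNat]
    have key := ord_eq_mul_of_factor v (x := j) (D := t ^ 2) (U := 1) (D₁ := t + C) (U₁ := 0)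
      (D₀ := c ^ 2) (U₀ := 1) 3 hv
      (ord_nonneg_of_mem v (add_mem htO hcO)) (by rw [v.ord_zero]) (pow_ne_zero 2 hc0) one_ne_zero
      (by rw [map_pow, ← hC]; ring) (by rw [map_one, mul_zero, add_zero])
      (by rw [hjt, hCv]; ring)
    obtain ⟨hj0, hjord⟩ := key
    have hpos : 0 < v.ord j := by rw [hjord]; positivity
    have := JZero v hpos
    rw [hjord] at this
    exact eq_one_of_mul_dvd hv (k := 3) (by norm_num) (by exact_mod_cast this)
  by_cases h512 : c = 512
  · have hCv : C = 512 := by rw [hC, h512, map_ofNat]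
    have key := ord_eq_mul_of_factor v (x := j - 1728) (D := t ^ 2) (U := t + 64)
      (D₁ := t + C) (U₁ := 1) (D₀ := c ^ 2) (U₀ := 576) 2 hv
      (ord_nonneg_of_mem v (add_mem htO hcO)) (by rw [v.ord_one]) (pow_ne_zero 2 hc0)
      (by norm_num)
      (by rw [map_pow, ← hC]; ring) (by rw [hCv, map_ofNat]; ring)
      (by rw [t2_sub_1728 hjt, hCv]; ring)
    obtain ⟨hj0, hjord⟩ := key
    have e1728 : algebraMap K F 1728 = 1728 := map_ofNat _ _
    have hpos : 0 < v.ord (j - algebraMap K F 1728) := by rw [e1728, hjord]; positivity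
    have := J1728 v hpos
    rw [e1728, hjord] at this
    exact eq_one_of_mul_dvd hv (k := 2) (by norm_num) (by exact_mod_cast this)
  · -- generic value
    have hB0 : c + 256 ≠ 0 := by
      intro h; apply h256; linear_combination h
    have hc512 : c - 512 ≠ 0 := sub_ne_zero.mpr h512
    have hc64' : c + 64 ≠ 0 := by
      intro h; apply hc64; linear_combination h
    have hac : (c + 256) ^ 3 / c ^ 2 * c ^ 2 = (c + 256) ^ 3 := by field_simp
    have ha0 : (c + 256) ^ 3 / c ^ 2 ≠ 0 :=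
      div_ne_zero (pow_ne_zero 3 hB0) (pow_ne_zero 2 hc0)
    have ha1728 : (c + 256) ^ 3 / c ^ 2 ≠ 1728 := by
      intro h
      have h1 : (c + 64) * (c - 512) ^ 2 = 0 := by
        have : (c + 256) ^ 3 - 1728 * c ^ 2 = 0 := by rw [← hac, h]; ring
        linear_combination this
      rcases mul_eq_zero.mp h1 with h2 | h2
      · exact hc64' h2
      · exact hc512 (pow_eq_zero_iff (two_ne_zero) |>.mp h2)
    have hacF : algebraMap K F ((c + 256) ^ 3 / c ^ 2) * C ^ 2 = (C + 256) ^ 3 := by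
      rw [hC, ← map_pow, ← map_mul, hac, map_pow, map_add, map_ofNat]
    have hBO : C + 256 ∈ v.toValuationSubring := add_mem hcO h256O
    have key := ord_eq_mul_of_factor v (x := j - algebraMap K F ((c + 256) ^ 3 / c ^ 2))
      (D := t ^ 2 * C ^ 2)
      (U := C ^ 2 * ((t + 256) ^ 2 + (t + 256) * (C + 256) + (C + 256) ^ 2)
        - (C + 256) ^ 3 * (C + t))
      (D₁ := C ^ 2 * (t + C)) (U₁ := C ^ 2 * ((t + 256) + 2 * (C + 256)) - (C + 256) ^ 3)
      (D₀ := c ^ 4) (U₀ := c * (c + 256) ^ 2 * (c - 512)) 1 hv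
      (ord_nonneg_of_mem v (mul_mem (pow_mem hcO 2) (add_mem htO hcO)))
      (ord_nonneg_of_mem v (sub_mem (mul_mem (pow_mem hcO 2)
        (add_mem (add_mem htO h256O) (mul_mem h2O hBO))) (pow_mem hBO 3)))
      (pow_ne_zero 4 hc0) (mul_ne_zero (mul_ne_zero hc0 (pow_ne_zero 2 hB0)) hc512)
      (by rw [map_pow, ← hC]; ring)
      (by
        simp only [map_mul, map_pow, map_sub, map_add, map_ofNat, ← hC]
        ring)
      (by
        rw [pow_one]
        linear_combination (C ^ 2) * hjt - t ^ 2 * hacF)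
    obtain ⟨hj0, hjord⟩ := key
    have hpos : 0 < v.ord (j - algebraMap K F ((c + 256) ^ 3 / c ^ 2)) := by
      rw [hjord]; simpa using hv
    have := JGen _ ha0 ha1728 v hpos
    rw [hjord] at this
    simpa using this

/-- Over `t₂ = -64` the ramification index divides `2`. -/
theorem ord_t2_add_64_dvd_two
    (J1728 : ∀ v : Place K F, 0 < v.ord (j - algebraMap K F 1728) →
      v.ord (j - algebraMap K F 1728) ∣ 2)
    (v : Place K F) (hv : 0 < v.ord (t + 64)) : v.ord (t + 64) ∣ 2 := by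
  have e64 : t + 64 = t - algebraMap K F (-64) := by rw [map_neg, map_ofNat]; ring
  have hv' : 0 < v.ord (t - algebraMap K F (-64)) := by rwa [← e64]
  have htO : t ∈ v.toValuationSubring := ord_nonneg_of_sub_pos v hv'
  have hn : ∀ n : ℕ, (n : F) ∈ v.toValuationSubring := fun n => natCast_mem _ n
  have h64O : (64 : F) ∈ v.toValuationSubring := by exact_mod_cast hn 64
  have h1088O : (1088 : F) ∈ v.toValuationSubring := by exact_mod_cast hn 1088
  have key := ord_eq_mul_of_factor v (x := j - 1728) (D := t ^ 2) (U := (t - 512) ^ 2)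
    (D₁ := t - 64) (U₁ := t - 1088) (D₀ := 4096) (U₀ := 331776) 1 hv
    (ord_nonneg_of_mem v (sub_mem htO h64O)) (ord_nonneg_of_mem v (sub_mem htO h1088O))
    (by norm_num) (by norm_num)
    (by rw [map_ofNat]; ring) (by rw [map_ofNat]; ring)
    (by rw [t2_sub_1728 hjt]; ring)
  obtain ⟨hj0, hjord⟩ := key
  have e1728 : algebraMap K F 1728 = 1728 := map_ofNat _ _
  have hpos : 0 < v.ord (j - algebraMap K F 1728) := by rw [e1728, hjord]; simpa using hv
  have := J1728 v hpos
  rw [e1728, hjord] at this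
  simpa using this

omit [CharZero K] in
theorem t2_ne_zero [CharZero F] : t ≠ 0 := by
  rintro rfl
  norm_num at hjt

/-- At a pole of `t₂`: `ord_v j = ord_v t₂`. -/
theorem ord_j_of_t2_pole (v : Place K F) (hv : v.ord t < 0) : v.ord j = v.ord t := by
  have ht0 : t ≠ 0 := ne_zero_of_ord_ne_zero v hv.ne
  have h256 : (256 : F) ≠ 0 := by
    have : (256 : F) = algebraMap K F 256 := (map_ofNat _ _).symm
    rw [this, Ne, map_eq_zero]; norm_num
  have h256o : v.ord (256 : F) = 0 := by
    have : (256 : F) = algebraMap K F 256 := (map_ofNat _ _).symm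
    rw [this, ord_algebraMap]
  have h1 : v.ord (t + 256) = v.ord t :=
    ord_add_eq_of_lt v ht0 h256 (by rw [h256o]; exact hv)
  have ht256 : t + 256 ≠ 0 := ne_zero_of_ord_ne_zero v (by rw [h1]; exact hv.ne)
  have hj0 : j ≠ 0 := by
    rintro rfl
    rw [zero_mul] at hjt
    exact pow_ne_zero 3 ht256 hjt.symm
  have h := congrArg v.ord hjt
  rw [v.ord_mul hj0 (pow_ne_zero 2 ht0), ord_pow, ord_pow, h1] at h
  push_cast at h
  omega

/-- At a zero of `t₂`: `ord_v j = -2 ord_v t₂`. -/
theorem ord_j_of_t2_zero (v : Place K F) (hv : 0 < v.ord t) : v.ord j = -2 * v.ord t := by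
  have ht0 : t ≠ 0 := ne_zero_of_ord_ne_zero v hv.ne'
  have h256 : (256 : F) ≠ 0 := by
    have : (256 : F) = algebraMap K F 256 := (map_ofNat _ _).symm
    rw [this, Ne, map_eq_zero]; norm_num
  have h256o : v.ord (256 : F) = 0 := by
    have : (256 : F) = algebraMap K F 256 := (map_ofNat _ _).symm
    rw [this, ord_algebraMap]
  have h1 : v.ord (t + 256) = 0 := by
    rw [add_comm, ord_add_eq_of_lt v h256 ht0 (by rw [h256o]; exact hv), h256o]
  have ht256 : t + 256 ≠ 0 := by
    intro h0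
    have : t = -256 := by linear_combination h0
    rw [this, ord_neg, h256o] at hv
    exact lt_irrefl _ hv
  have hj0 : j ≠ 0 := by
    rintro rfl
    rw [zero_mul] at hjt
    exact pow_ne_zero 3 ht256 hjt.symm
  have h := congrArg v.ord hjt
  rw [v.ord_mul hj0 (pow_ne_zero 2 ht0), ord_pow, ord_pow, h1] at h
  push_cast at h
  omega

end T2

section T3

variable [CharZero K] {j t : F} (hjt : j * t ^ 3 = (t + 27) * (t + 243) ^ 3)

include hjt

/-- `j - 1728` in terms of `t = t₃`. -/
theorem t3_sub_1728 : (j - 1728) * t ^ 3 = (t ^ 2 - 486 * t - 19683) ^ 2 := by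
  linear_combination hjt

/-- **Branch values of `t₃`.**  Outside `c ∈ {0, -27}` (and `∞`) the function `t₃` is unramified. -/
theorem ord_t3_sub_eq_one
    (JGen : ∀ (a : K), a ≠ 0 → a ≠ 1728 → ∀ v : Place K F,
      0 < v.ord (j - algebraMap K F a) → v.ord (j - algebraMap K F a) = 1)
    (JZero : ∀ v : Place K F, 0 < v.ord j → v.ord j ∣ 3)
    (J1728 : ∀ v : Place K F, 0 < v.ord (j - algebraMap K F 1728) →
      v.ord (j - algebraMap K F 1728) ∣ 2)
    (c : K) (hc0 : c ≠ 0) (hc27 : c ≠ -27) (v : Place K F)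
    (hv : 0 < v.ord (t - algebraMap K F c)) : v.ord (t - algebraMap K F c) = 1 := by
  have htO : t ∈ v.toValuationSubring := ord_nonneg_of_sub_pos v hv
  have hcO : algebraMap K F c ∈ v.toValuationSubring := v.algebraMap_mem' c
  have hn : ∀ n : ℕ, (n : F) ∈ v.toValuationSubring := fun n => natCast_mem _ n
  have h243O : (243 : F) ∈ v.toValuationSubring := by exact_mod_cast hn 243
  have h27O : (27 : F) ∈ v.toValuationSubring := by exact_mod_cast hn 27
  have h2O : (2 : F) ∈ v.toValuationSubring := by exact_mod_cast hn 2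
  have h3O : (3 : F) ∈ v.toValuationSubring := by exact_mod_cast hn 3
  have h972O : (972 : F) ∈ v.toValuationSubring := by exact_mod_cast hn 972
  set C := algebraMap K F c with hC
  have hD₁ : 0 ≤ v.ord (t ^ 2 + t * C + C ^ 2) :=
    ord_nonneg_of_mem v (add_mem (add_mem (pow_mem htO 2) (mul_mem htO hcO)) (pow_mem hcO 2))
  by_cases h243 : c = -243
  · -- over `j = 0`, `t + 243` appears to the third power
    have hCv : C = -243 := by rw [hC, h243, map_neg, map_ofNat]
    have key := ord_eq_mul_of_factor v (x := j) (D := t ^ 3) (U := t + 27)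
      (D₁ := t ^ 2 + t * C + C ^ 2) (U₁ := 1) (D₀ := c ^ 3) (U₀ := -216) 3 hv
      hD₁ (by rw [v.ord_one]) (pow_ne_zero 3 hc0) (by norm_num)
      (by rw [map_pow, ← hC]; ring) (by rw [hCv, map_neg, map_ofNat]; ring)
      (by rw [hjt, hCv]; ring)
    obtain ⟨hj0, hjord⟩ := key
    have hpos : 0 < v.ord j := by rw [hjord]; positivity
    have := JZero v hpos
    rw [hjord] at this
    exact eq_one_of_mul_dvd hv (k := 3) (by norm_num) (by exact_mod_cast this)
  by_cases hg : c ^ 2 - 486 * c - 19683 = 0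
  · -- over `j = 1728`
    have hgF : C ^ 2 - 486 * C - 19683 = 0 := by
      have := congrArg (algebraMap K F) hg
      simpa only [map_sub, map_mul, map_pow, map_ofNat, map_zero, ← hC] using this
    have h2c : 2 * c - 486 ≠ 0 := by
      intro h
      have : (314928 : K) = 0 := by linear_combination (2 * c - 486) * h - 4 * hg
      norm_num at this
    have key := ord_eq_mul_of_factor v (x := j - 1728) (D := t ^ 3) (U := (t + C - 486) ^ 2)
      (D₁ := t ^ 2 + t * C + C ^ 2) (U₁ := t + 3 * C - 972) (D₀ := c ^ 3)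
      (U₀ := (2 * c - 486) ^ 2) 2 hv
      hD₁ (ord_nonneg_of_mem v (sub_mem (add_mem htO (mul_mem h3O hcO)) h972O))
      (pow_ne_zero 3 hc0) (pow_ne_zero 2 h2c)
      (by rw [map_pow, ← hC]; ring)
      (by
        simp only [map_mul, map_pow, map_sub, map_ofNat, ← hC]
        ring)
      (by
        rw [t3_sub_1728 hjt]
        linear_combination
          (2 * (t ^ 2 - 486 * t - 19683) - (C ^ 2 - 486 * C - 19683)) * hgF)
    obtain ⟨hj0, hjord⟩ := key
    have e1728 : algebraMap K F 1728 = 1728 := map_ofNat _ _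
    have hpos : 0 < v.ord (j - algebraMap K F 1728) := by rw [e1728, hjord]; positivity
    have := J1728 v hpos
    rw [e1728, hjord] at this
    exact eq_one_of_mul_dvd hv (k := 2) (by norm_num) (by exact_mod_cast this)
  · -- generic value
    have hB0 : c + 243 ≠ 0 := by
      intro h; apply h243; linear_combination h
    have hB'0 : c + 27 ≠ 0 := by
      intro h; apply hc27; linear_combination h
    have hac : (c + 27) * (c + 243) ^ 3 / c ^ 3 * c ^ 3 = (c + 27) * (c + 243) ^ 3 := by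
      field_simp
    have ha0 : (c + 27) * (c + 243) ^ 3 / c ^ 3 ≠ 0 :=
      div_ne_zero (mul_ne_zero hB'0 (pow_ne_zero 3 hB0)) (pow_ne_zero 3 hc0)
    have ha1728 : (c + 27) * (c + 243) ^ 3 / c ^ 3 ≠ 1728 := by
      intro h
      have h1 : (c ^ 2 - 486 * c - 19683) ^ 2 = 0 := by
        have : (c + 27) * (c + 243) ^ 3 - 1728 * c ^ 3 = 0 := by rw [← hac, h]; ring
        linear_combination this
      exact hg (pow_eq_zero_iff (two_ne_zero) |>.mp h1)
    have hacF : algebraMap K F ((c + 27) * (c + 243) ^ 3 / c ^ 3) * C ^ 3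
        = (C + 27) * (C + 243) ^ 3 := by
      rw [hC, ← map_pow, ← map_mul, hac, map_mul, map_pow, map_add, map_add, map_ofNat,
        map_ofNat]
    have hBO : C + 243 ∈ v.toValuationSubring := add_mem hcO h243O
    have hB'O : C + 27 ∈ v.toValuationSubring := add_mem hcO h27O
    have hAO : t + 243 ∈ v.toValuationSubring := add_mem htO h243O
    have hQO : (t + 243) ^ 2 + (t + 243) * (C + 243) + (C + 243) ^ 2 ∈ v.toValuationSubring :=
      add_mem (add_mem (pow_mem hAO 2) (mul_mem hAO hBO)) (pow_mem hBO 2)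
    have key := ord_eq_mul_of_factor v
      (x := j - algebraMap K F ((c + 27) * (c + 243) ^ 3 / c ^ 3))
      (D := t ^ 3 * C ^ 3)
      (U := C ^ 3 * ((t + 27) * ((t + 243) ^ 2 + (t + 243) * (C + 243) + (C + 243) ^ 2)
          + (C + 243) ^ 3)
        - (C + 27) * (C + 243) ^ 3 * (t ^ 2 + t * C + C ^ 2))
      (D₁ := C ^ 3 * (t ^ 2 + t * C + C ^ 2))
      (U₁ := C ^ 3 * (((t + 243) ^ 2 + (t + 243) * (C + 243) + (C + 243) ^ 2)
          + (C + 27) * ((t + 243) + 2 * (C + 243)))
        - (C + 27) * (C + 243) ^ 3 * (t + 2 * C))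
      (D₀ := c ^ 6) (U₀ := c ^ 2 * (c + 243) ^ 2 * (c ^ 2 - 486 * c - 19683)) 1 hv
      (ord_nonneg_of_mem v (mul_mem (pow_mem hcO 3)
        (add_mem (add_mem (pow_mem htO 2) (mul_mem htO hcO)) (pow_mem hcO 2))))
      (ord_nonneg_of_mem v (sub_mem
        (mul_mem (pow_mem hcO 3) (add_mem hQO (mul_mem hB'O (add_mem hAO (mul_mem h2O hBO)))))
        (mul_mem (mul_mem hB'O (pow_mem hBO 3)) (add_mem htO (mul_mem h2O hcO)))))
      (pow_ne_zero 6 hc0) (mul_ne_zero (mul_ne_zero (pow_ne_zero 2 hc0) (pow_ne_zero 2 hB0)) hg)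
      (by rw [map_pow, ← hC]; ring)
      (by
        simp only [map_mul, map_pow, map_sub, map_add, map_ofNat, ← hC]
        ring)
      (by
        rw [pow_one]
        linear_combination (C ^ 3) * hjt - t ^ 3 * hacF)
    obtain ⟨hj0, hjord⟩ := key
    have hpos : 0 < v.ord (j - algebraMap K F ((c + 27) * (c + 243) ^ 3 / c ^ 3)) := by
      rw [hjord]; simpa using hv
    have := JGen _ ha0 ha1728 v hpos
    rw [hjord] at this
    simpa using this

/-- Over `t₃ = -27` the ramification index divides `3`. -/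
theorem ord_t3_add_27_dvd_three
    (JZero : ∀ v : Place K F, 0 < v.ord j → v.ord j ∣ 3)
    (v : Place K F) (hv : 0 < v.ord (t + 27)) : v.ord (t + 27) ∣ 3 := by
  have e27 : t + 27 = t - algebraMap K F (-27) := by rw [map_neg, map_ofNat]; ring
  have hv' : 0 < v.ord (t - algebraMap K F (-27)) := by rwa [← e27]
  have htO : t ∈ v.toValuationSubring := ord_nonneg_of_sub_pos v hv'
  have hn : ∀ n : ℕ, (n : F) ∈ v.toValuationSubring := fun n => natCast_mem _ n
  have h27O : (27 : F) ∈ v.toValuationSubring := by exact_mod_cast hn 27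
  have h243O : (243 : F) ∈ v.toValuationSubring := by exact_mod_cast hn 243
  have h216O : (216 : F) ∈ v.toValuationSubring := by exact_mod_cast hn 216
  have hAO : t + 243 ∈ v.toValuationSubring := add_mem htO h243O
  have key := ord_eq_mul_of_factor v (x := j) (D := t ^ 3) (U := (t + 243) ^ 3)
    (D₁ := t ^ 2 - 27 * t + 729) (U₁ := (t + 243) ^ 2 + 216 * (t + 243) + 216 ^ 2)
    (D₀ := -19683) (U₀ := 10077696) 1 hv
    (ord_nonneg_of_mem v (add_mem (sub_mem (pow_mem htO 2) (mul_mem h27O htO))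
      (by exact_mod_cast hn 729)))
    (ord_nonneg_of_mem v (add_mem (add_mem (pow_mem hAO 2) (mul_mem h216O hAO))
      (pow_mem h216O 2)))
    (by norm_num) (by norm_num)
    (by rw [map_neg, map_ofNat]; ring) (by rw [map_ofNat]; ring)
    (by rw [hjt]; ring)
  obtain ⟨hj0, hjord⟩ := key
  have hpos : 0 < v.ord j := by rw [hjord]; simpa using hv
  have := JZero v hpos
  rw [hjord] at this
  simpa using this

/-- At a pole of `t₃`: `ord_v j = ord_v t₃`. -/
theorem ord_j_of_t3_pole (v : Place K F) (hv : v.ord t < 0) : v.ord j = v.ord t := by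
  have ht0 : t ≠ 0 := ne_zero_of_ord_ne_zero v hv.ne
  have hcst : ∀ n : ℕ, n ≠ 0 → ((n : F) ≠ 0 ∧ v.ord (n : F) = 0) := by
    intro n hn
    have : (n : F) = algebraMap K F n := (map_natCast _ _).symm
    rw [this, Ne, map_eq_zero, ord_algebraMap]
    exact ⟨by exact_mod_cast hn, rfl⟩
  have h27 := hcst 27 (by norm_num)
  have h243 := hcst 243 (by norm_num)
  push_cast at h27 h243
  have h1 : v.ord (t + 27) = v.ord t :=
    ord_add_eq_of_lt v ht0 h27.1 (by rw [h27.2]; exact hv)
  have h2 : v.ord (t + 243) = v.ord t :=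
    ord_add_eq_of_lt v ht0 h243.1 (by rw [h243.2]; exact hv)
  have ht27 : t + 27 ≠ 0 := ne_zero_of_ord_ne_zero v (by rw [h1]; exact hv.ne)
  have ht243 : t + 243 ≠ 0 := ne_zero_of_ord_ne_zero v (by rw [h2]; exact hv.ne)
  have hj0 : j ≠ 0 := by
    rintro rfl
    rw [zero_mul] at hjt
    exact mul_ne_zero ht27 (pow_ne_zero 3 ht243) hjt.symm
  have h := congrArg v.ord hjt
  rw [v.ord_mul hj0 (pow_ne_zero 3 ht0), v.ord_mul ht27 (pow_ne_zero 3 ht243), ord_pow, ord_pow,
    h1, h2] at h
  push_cast at h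
  omega

/-- At a zero of `t₃`: `ord_v j = -3 ord_v t₃`. -/
theorem ord_j_of_t3_zero (v : Place K F) (hv : 0 < v.ord t) : v.ord j = -3 * v.ord t := by
  have ht0 : t ≠ 0 := ne_zero_of_ord_ne_zero v hv.ne'
  have hcst : ∀ n : ℕ, n ≠ 0 → ((n : F) ≠ 0 ∧ v.ord (n : F) = 0) := by
    intro n hn
    have : (n : F) = algebraMap K F n := (map_natCast _ _).symm
    rw [this, Ne, map_eq_zero, ord_algebraMap]
    exact ⟨by exact_mod_cast hn, rfl⟩
  have h27 := hcst 27 (by norm_num)
  have h243 := hcst 243 (by norm_num)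
  push_cast at h27 h243
  have h1 : v.ord (t + 27) = 0 := by
    rw [add_comm, ord_add_eq_of_lt v h27.1 ht0 (by rw [h27.2]; exact hv), h27.2]
  have h2 : v.ord (t + 243) = 0 := by
    rw [add_comm, ord_add_eq_of_lt v h243.1 ht0 (by rw [h243.2]; exact hv), h243.2]
  have ht27 : t + 27 ≠ 0 := by
    intro h0
    have : t = -27 := by linear_combination h0
    rw [this, ord_neg, h27.2] at hv
    exact lt_irrefl _ hv
  have ht243 : t + 243 ≠ 0 := by
    intro h0
    have : t = -243 := by linear_combination h0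
    rw [this, ord_neg, h243.2] at hv
    exact lt_irrefl _ hv
  have hj0 : j ≠ 0 := by
    rintro rfl
    rw [zero_mul] at hjt
    exact mul_ne_zero ht27 (pow_ne_zero 3 ht243) hjt.symm
  have h := congrArg v.ord hjt
  rw [v.ord_mul hj0 (pow_ne_zero 3 ht0), v.ord_mul ht27 (pow_ne_zero 3 ht243), ord_pow, ord_pow,
    h1, h2] at h
  push_cast at h
  omega

end T3

end Fermat.Agent.S18.H384
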