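import Fermat.Agent.S18.H384.BranchJ
import Fermat.Agent.S18.H384.Haupt

/-!
# S18 / MOD M2 — branch values of `F_M / ℚ̄(t)` for a Hauptmodul `t` of level `2` or `3` (helper384)

`F_M = FF M = modularFunctionFieldBar M`, `j = jF M`.  For ANY `t ∈ F_M` satisfying the classical
relation with `j` (to be instantiated with the Hauptmodul `t₂`, `2 ∣ M`, resp. `t₃`, `3 ∣ M`):

* `FF_t2_unramified` : `j t² = (t+256)³`, `c ∉ {0,-64}`, `0 < ord_v (t-c)`  ⟹  `ord_v (t-c) = 1`;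
* `FF_t2_at_neg64`   : `ord_v (t+64) ∣ 2`;
* `FF_t2_pole`, `FF_t2_zero` : at a pole `-ord_v t ∣ M`, at a zero `2 * ord_v t ∣ M`;
* `FF_t3_unramified` : `j t³ = (t+27)(t+243)³`, `c ∉ {0,-27}`, `0 < ord_v (t-c)` ⟹ `ord_v (t-c) = 1`;
* `FF_t3_at_neg27`   : `ord_v (t+27) ∣ 3`;
* `FF_t3_pole`, `FF_t3_zero` : at a pole `-ord_v t ∣ M`, at a zero `3 * ord_v t ∣ M`.

So the branch values of `t₂` are `{-64, 0, ∞}` with ramification indices dividing `2, M, M`
(prime to `3` when `3 ∤ M`), those of `t₃` are `{-27, 0, ∞}` with indices dividing `3, M, M`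
(prime to `2` when `2 ∤ M`); and `-64 ≢ 0 mod 3`, `-27 ≢ 0 mod 2`.
-/

set_option autoImplicit false

noncomputable section

open AlgebraicCurve ModularCurve

namespace Fermat.Agent.S18.H384

open Fermat.Agent.S24 Fermat.Agent.Lib.RR

variable {M : ℕ} [NeZero M]

theorem ord_jF_dvd_level_of_neg (v : Place Kbar (FF M)) (hv : v.ord (jF M) < 0) :
    v.ord (jF M) ∣ (M : ℤ) := by
  have h := ord_jF_inv_dvd_level v (by rw [v.ord_inv]; omega)
  rw [v.ord_inv] at h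
  exact (neg_dvd).mp h

section T2

variable {t : FF M} (ht : jF M * t ^ 2 = (t + 256) ^ 3)

include ht

theorem FF_t2_unramified (c : Kbar) (hc0 : c ≠ 0) (hc64 : c ≠ -64) (v : Place Kbar (FF M))
    (hv : 0 < v.ord (t - algebraMap Kbar (FF M) c)) : v.ord (t - algebraMap Kbar (FF M) c) = 1 :=
  ord_t2_sub_eq_one ht (fun a h0 h1 v hv => ord_jF_sub_eq_one a h0 h1 v hv)
    ord_jF_dvd_three ord_jF_sub_1728_dvd_two c hc0 hc64 v hv

theorem FF_t2_at_neg64 (v : Place Kbar (FF M)) (hv : 0 < v.ord (t + 64)) : v.ord (t + 64) ∣ 2 :=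
  ord_t2_add_64_dvd_two ht ord_jF_sub_1728_dvd_two v hv

theorem FF_t2_pole (v : Place Kbar (FF M)) (hv : v.ord t < 0) : v.ord t ∣ (M : ℤ) := by
  have h := ord_j_of_t2_pole ht v hv
  rw [← h]
  exact ord_jF_dvd_level_of_neg v (by rw [h]; exact hv)

theorem FF_t2_zero (v : Place Kbar (FF M)) (hv : 0 < v.ord t) : 2 * v.ord t ∣ (M : ℤ) := by
  have h := ord_j_of_t2_zero ht v hv
  have h1 := ord_jF_dvd_level_of_neg v (by rw [h]; omega)
  rw [h] at h1
  have : -2 * v.ord t = -(2 * v.ord t) := by ring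
  rw [this] at h1
  exact (neg_dvd).mp h1

end T2

section T3

variable {t : FF M} (ht : jF M * t ^ 3 = (t + 27) * (t + 243) ^ 3)

include ht

theorem FF_t3_unramified (c : Kbar) (hc0 : c ≠ 0) (hc27 : c ≠ -27) (v : Place Kbar (FF M))
    (hv : 0 < v.ord (t - algebraMap Kbar (FF M) c)) : v.ord (t - algebraMap Kbar (FF M) c) = 1 :=
  ord_t3_sub_eq_one ht (fun a h0 h1 v hv => ord_jF_sub_eq_one a h0 h1 v hv)
    ord_jF_dvd_three ord_jF_sub_1728_dvd_two c hc0 hc27 v hv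

theorem FF_t3_at_neg27 (v : Place Kbar (FF M)) (hv : 0 < v.ord (t + 27)) : v.ord (t + 27) ∣ 3 :=
  ord_t3_add_27_dvd_three ht ord_jF_dvd_three v hv

theorem FF_t3_pole (v : Place Kbar (FF M)) (hv : v.ord t < 0) : v.ord t ∣ (M : ℤ) := by
  have h := ord_j_of_t3_pole ht v hv
  rw [← h]
  exact ord_jF_dvd_level_of_neg v (by rw [h]; exact hv)

theorem FF_t3_zero (v : Place Kbar (FF M)) (hv : 0 < v.ord t) : 3 * v.ord t ∣ (M : ℤ) := by
  have h := ord_j_of_t3_zero ht v hv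
  have h1 := ord_jF_dvd_level_of_neg v (by rw [h]; omega)
  rw [h] at h1
  have : -3 * v.ord t = -(3 * v.ord t) := by ring
  rw [this] at h1
  exact (neg_dvd).mp h1

end T3

end Fermat.Agent.S18.H384
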